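/-
S26, block CURVES (architect helper26), leaf ALG-FIN1.
-/
import Fermat.Agent.S26.Curves.Alg.Overring
import Fermat.Agent.S26.Curves.Alg.Du

set_option autoImplicit false

open IntermediateField

namespace Fermat.Agent.S26.Curves

variable {K F : Type*} [Field K] [Field F] [Algebra K F]

/-- change of the base subring in `IsIntegral`, along an inclusion of subrings of `F`. -/
theorem span_isIntegral_of_le {R₁ R₂ : Type*} [CommRing R₁] [CommRing R₂] [Algebra R₁ F]
    [Algebra R₂ F] (φ : R₁ →+* R₂) (hφ : ∀ r, algebraMap R₂ F (φ r) = algebraMap R₁ F r) {x : F}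
    (hx : IsIntegral R₁ x) : IsIntegral R₂ x := by
  obtain ⟨P, hP, hPx⟩ := hx
  refine ⟨P.map φ, hP.map φ, ?_⟩
  rw [Polynomial.eval₂_map]
  have : (algebraMap R₂ F).comp φ = algebraMap R₁ F := RingHom.ext hφ
  rw [this]
  exact hPx

/-- the `B`-span of a subring is the `B`-algebra it generates. -/
theorem span_adjoin_toSubmodule (B : Subalgebra K F) (D : Subring F) :
    Subalgebra.toSubmodule (Algebra.adjoin B (D : Set F)) = Submodule.span B (D : Set F) := by
  rw [Algebra.adjoin_eq_span]
  congr 1
  have : Submonoid.closure (D : Set F) = D.toSubmonoid := Submonoid.closure_eq D.toSubmonoid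
  rw [this]
  rfl

/-- Let `u ∈ B` with `D = integralClosure K[u] F` finite over `K[u]`, Dedekind with fraction field
`F`.  Then the integral closure of `B` in `F` is the `B`-span of `D`.
(`S := span_B D` is a subring containing `B` and `D`, contained in the integral closure;
it is an overring of `D`, hence integrally closed by `overring_mem_of_isIntegral`.) -/
theorem integralClosure_eq_span (B : Subalgebra K F) (u : F) (huB : u ∈ B)
    (hu : Transcendental K u) [FiniteDimensional K⟮u⟯ F] [Algebra.IsSeparable K⟮u⟯ F] (x : F) :
    IsIntegral B x ↔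
      x ∈ Submodule.span B ((integralClosure (Algebra.adjoin K {u}) F : Set F)) := by
  have hAB : Algebra.adjoin K {u} ≤ B := Algebra.adjoin_le (by simpa using huB)
  constructor
  · intro hx
    obtain ⟨h1, h2, -⟩ := du_facts (K := K) u hu
    have hspan := span_adjoin_toSubmodule B (integralClosure (Algebra.adjoin K {u}) F).toSubring
    set S := Algebra.adjoin B
      (((integralClosure (Algebra.adjoin K {u}) F).toSubring : Subring F) : Set F) with hS
    have hxS : x ∈ S.toSubring := by
      refine overring_mem_of_isIntegral (D := integralClosure (Algebra.adjoin K {u}) F)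
        S.toSubring (fun d => Algebra.subset_adjoin d.2) ?_
      exact span_isIntegral_of_le (R₁ := B) (R₂ := S.toSubring)
        (algebraMap B S) (fun _ => rfl) hx
    have hxS' : x ∈ Subalgebra.toSubmodule S := hxS
    rw [hspan] at hxS'
    exact hxS'
  · intro hx
    have hle : Submodule.span B ((integralClosure (Algebra.adjoin K {u}) F : Set F)) ≤
        Subalgebra.toSubmodule (integralClosure B F) := by
      rw [Submodule.span_le]
      intro d hd
      exact span_isIntegral_of_le (R₁ := Algebra.adjoin K {u}) (R₂ := B)
        (Subalgebra.inclusion hAB).toRingHom (fun _ => rfl) hd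
    exact hle hx

end Fermat.Agent.S26.Curves
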